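import Mathlib

set_option autoImplicit false

namespace Fermat.Agent.S57

open RingTheory.Sequence IsLocalRing
open scoped Pointwise

/-- A local ring whose maximal ideal is generated by a weakly regular sequence. -/
def H1RegGen (A : Type) [CommRing A] [IsLocalRing A] : Prop :=
  ∃ xs : List A, IsWeaklyRegular A xs ∧ Ideal.ofList xs = maximalIdeal A

theorem h1_regGen_of_ringEquiv {A B : Type} [CommRing A] [CommRing B] [IsLocalRing A]
    [IsLocalRing B] (e : A ≃+* B) (h : H1RegGen A) : H1RegGen B := by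
  obtain ⟨xs, hreg, hmax⟩ := h
  refine ⟨xs.map (e : A →+* B), ?_, ?_⟩
  · refine (e.toAddEquiv.isWeaklyRegular_congr (as := xs) (bs := xs.map (e : A →+* B)) ?_).mp hreg
    exact List.forall₂_map_right_iff.mpr (List.forall₂_same.mpr fun r _ x => map_mul e r x)
  · rw [← Ideal.map_ofList (e : A →+* B), hmax]
    exact map_ringEquiv_maximalIdeal e

theorem h1_regGen_powerSeries {A : Type} [CommRing A] [IsLocalRing A] (h : H1RegGen A) :
    H1RegGen (PowerSeries A) := by
  obtain ⟨xs, hreg, hmax⟩ := h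
  refine ⟨PowerSeries.X :: xs.map (PowerSeries.C : A →+* PowerSeries A), ?_, ?_⟩
  · rw [isWeaklyRegular_cons_iff]
    refine ⟨?_, ?_⟩
    · intro a b hab
      exact PowerSeries.X_mul_cancel hab
    · let f : PowerSeries A →+ A := (PowerSeries.constantCoeff (R := A)).toAddMonoidHom
      have hf : Function.Surjective f := fun a => ⟨PowerSeries.C a, by simp [f]⟩
      have hker : ((PowerSeries.X : PowerSeries A) •
          (⊤ : Submodule (PowerSeries A) (PowerSeries A))).toAddSubgroup = f.ker := by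
        ext φ
        rw [Submodule.mem_toAddSubgroup, Submodule.mem_smul_pointwise_iff_exists,
          AddMonoidHom.mem_ker]
        constructor
        · rintro ⟨ψ, -, rfl⟩
          simp [f]
        · intro hφ
          have h1 : (PowerSeries.X : PowerSeries A) ∣ φ := PowerSeries.X_dvd_iff.mpr hφ
          obtain ⟨ψ, rfl⟩ := h1
          exact ⟨ψ, Submodule.mem_top, rfl⟩
      let e : QuotSMulTop (PowerSeries.X : PowerSeries A) (PowerSeries A) ≃+ A :=
        (QuotientAddGroup.quotientAddEquivOfEq hker).trans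
          (QuotientAddGroup.quotientKerEquivOfSurjective f hf)
      refine (e.isWeaklyRegular_congr (as := xs.map (PowerSeries.C : A →+* PowerSeries A))
        (bs := xs) ?_).mpr hreg
      refine List.forall₂_map_left_iff.mpr (List.forall₂_same.mpr fun r _ x => ?_)
      obtain ⟨y, rfl⟩ := Submodule.Quotient.mk_surjective _ x
      have he : ∀ z : PowerSeries A, e (Submodule.Quotient.mk z) = f z := fun z => rfl
      rw [← Submodule.Quotient.mk_smul, he, he]
      simp [f]
  · rw [Ideal.ofList_cons, ← Ideal.map_ofList, hmax]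
    apply le_antisymm
    · rw [sup_le_iff]
      constructor
      · rw [Ideal.span_singleton_le_iff_mem, mem_maximalIdeal, mem_nonunits_iff,
          PowerSeries.isUnit_iff_constantCoeff]
        simp
      · rw [Ideal.map_le_iff_le_comap]
        intro a ha
        rw [Ideal.mem_comap, mem_maximalIdeal, mem_nonunits_iff,
          PowerSeries.isUnit_iff_constantCoeff]
        simpa using ha
    · intro φ hφ
      rw [mem_maximalIdeal, mem_nonunits_iff, PowerSeries.isUnit_iff_constantCoeff] at hφ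
      rw [PowerSeries.eq_X_mul_shift_add_const φ]
      refine Ideal.add_mem _ (Ideal.mem_sup_left ?_) (Ideal.mem_sup_right ?_)
      · exact Ideal.mul_mem_right _ _ (Ideal.mem_span_singleton_self _)
      · exact Ideal.mem_map_of_mem _ hφ

theorem h1_regGen_dvr (𝒪 : Type) [CommRing 𝒪] [IsDomain 𝒪] [IsDiscreteValuationRing 𝒪] :
    H1RegGen 𝒪 := by
  obtain ⟨ϖ, hϖ⟩ := IsDiscreteValuationRing.exists_irreducible 𝒪
  refine ⟨[ϖ], ?_, ?_⟩
  · rw [isWeaklyRegular_cons_iff]
    refine ⟨?_, IsWeaklyRegular.nil _ _⟩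
    intro a b hab
    exact mul_left_cancel₀ hϖ.ne_zero hab
  · rw [Ideal.ofList_singleton, hϖ.maximalIdeal_eq]

theorem h1_regGen_mvPowerSeries (𝒪 : Type) [CommRing 𝒪] [IsDomain 𝒪] [IsDiscreteValuationRing 𝒪]
    (r : ℕ) : H1RegGen (MvPowerSeries (Fin r) 𝒪) := by
  induction r with
  | zero =>
    exact h1_regGen_of_ringEquiv (MvPowerSeries.isEmptyEquiv (Fin 0) 𝒪).toRingEquiv.symm
      (h1_regGen_dvr 𝒪)
  | succ n ih =>
    exact h1_regGen_of_ringEquiv (MvPowerSeries.finSuccEquiv 𝒪 n).toRingEquiv.symm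
      (h1_regGen_powerSeries ih)

theorem exists_regular_generators (𝒪 : Type) [CommRing 𝒪] [IsDomain 𝒪]
    [IsDiscreteValuationRing 𝒪] (r : ℕ) :
    ∃ xs : List (MvPowerSeries (Fin r) 𝒪),
      RingTheory.Sequence.IsRegular (MvPowerSeries (Fin r) 𝒪) xs ∧
        Ideal.ofList xs = IsLocalRing.maximalIdeal (MvPowerSeries (Fin r) 𝒪) := by
  obtain ⟨xs, hreg, hmax⟩ := h1_regGen_mvPowerSeries 𝒪 r
  refine ⟨xs, ?_, hmax⟩
  refine IsRegular.of_isWeaklyRegular_of_mem_maximalIdeal _ (fun x hx => ?_) hreg
  rw [← hmax]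
  exact Ideal.subset_span hx

end Fermat.Agent.S57
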