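import Fermat.Statements.S57
import Mathlib

set_option autoImplicit false
open Algebra Algebra.PatchingLevel

namespace Fermat.Agent.S57

theorem mem_ideal_smul_top_iff_repr {S : Type} [CommRing S] {N : Type} [AddCommGroup N]
    [Module S N] {ι : Type} (u : Module.Basis ι S N) (I : Ideal S) (x : N) :
    x ∈ I • (⊤ : Submodule S N) ↔ ∀ j, u.repr x j ∈ I := by
  constructor
  · intro hx
    refine Submodule.smul_induction_on hx ?_ ?_
    · intro r hr n _ j
      simpa using I.mul_mem_right _ hr
    · intro x y hx hy j
      simpa using I.add_mem (hx j) (hy j)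
  · intro h
    rw [← u.linearCombination_repr x, Finsupp.linearCombination_apply]
    refine Submodule.sum_mem _ fun j _ => ?_
    exact Submodule.smul_mem_smul (h j) Submodule.mem_top

theorem result_of_free {𝒪 : Type} [CommRing 𝒪] [IsDomain 𝒪] [IsDiscreteValuationRing 𝒪] {r : ℕ}
    {R : Type} [CommRing R] [Algebra 𝒪 R] {M : Type} [AddCommGroup M] [Module R M] [Nontrivial M]
    (L : Algebra.PatchingLevel 𝒪 r R M ⊥)
    (hfree : Module.Free (MvPowerSeries (Fin r) 𝒪) L.N) :
    Module.Free R M ∧ Module.annihilator R M = ⊥ ∧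
      RingHom.ker L.ψ = Ideal.span (Set.range fun i : Fin r => L.φ (MvPowerSeries.X i)) := by
  classical
  set I : Ideal (MvPowerSeries (Fin r) 𝒪) :=
    Ideal.span (Set.range fun i : Fin r => L.φ (MvPowerSeries.X i)) with hI
  let u := Module.Free.chooseBasis (MvPowerSeries (Fin r) 𝒪) L.N
  -- I ≤ ker ψ
  have hIψ : ∀ s ∈ I, L.ψ s = 0 := by
    intro s hs
    have : I ≤ RingHom.ker L.ψ := by
      rw [hI, Ideal.span_le]
      rintro _ ⟨i, rfl⟩
      exact L.ψ_φ_X i
    exact this hs
  -- kernel of π in coordinates
  have hker : ∀ x : L.N, L.π x = 0 ↔ ∀ j, u.repr x j ∈ I := by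
    intro x
    rw [L.ker_π x]
    exact mem_ideal_smul_top_iff_repr u I x
  -- π of a finite combination
  have hπsum : ∀ (c : Module.Free.ChooseBasisIndex (MvPowerSeries (Fin r) 𝒪) L.N →₀
      MvPowerSeries (Fin r) 𝒪),
      L.π (Finsupp.linearCombination _ u c) =
        Finsupp.linearCombination R (fun j => L.π (u j)) (Finsupp.mapRange L.ψ (map_zero _) c) := by
    intro c
    rw [Finsupp.linearCombination_apply, Finsupp.linearCombination_apply,
      Finsupp.sum_mapRange_index (by simp), Finsupp.sum, Finsupp.sum, map_sum]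
    refine Finset.sum_congr rfl fun j _ => ?_
    exact L.π_smul _ _
  -- linear independence
  have hli : LinearIndependent R (fun j => L.π (u j)) := by
    rw [linearIndependent_iff]
    intro c hc
    obtain ⟨s, rfl⟩ := Finsupp.mapRange_surjective L.ψ (map_zero _) L.ψ_surjective c
    rw [← hπsum, hker] at hc
    ext j
    have := hc j
    rw [u.repr_linearCombination] at this
    simpa using hIψ _ this
  have hsp : ⊤ ≤ Submodule.span R (Set.range fun j => L.π (u j)) := by
    rintro y -
    obtain ⟨x, rfl⟩ := L.π_surjective y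
    rw [← u.linearCombination_repr x, hπsum]
    rw [Finsupp.mem_span_range_iff_exists_finsupp]
    exact ⟨_, rfl⟩
  let v : Module.Basis _ R M := Module.Basis.mk hli hsp
  have hvfree : Module.Free R M := Module.Free.of_basis v
  -- index type nonempty
  have hne : Nonempty (Module.Free.ChooseBasisIndex (MvPowerSeries (Fin r) 𝒪) L.N) := by
    by_contra hempty
    rw [not_nonempty_iff] at hempty
    obtain ⟨y, hy⟩ := exists_ne (0 : M)
    obtain ⟨x, rfl⟩ := L.π_surjective y
    apply hy
    rw [hker]
    intro j
    exact (hempty.false j).elim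
  obtain ⟨j₀⟩ := hne
  refine ⟨hvfree, ?_, ?_⟩
  · rw [eq_bot_iff]
    intro a ha
    rw [Module.mem_annihilator] at ha
    have h1 := ha (L.π (u j₀))
    have h2 := hli.smul_left_injective j₀
    exact h2 (by simpa using h1)
  · apply le_antisymm
    · intro s hs
      have h1 : L.π (s • u j₀) = 0 := by
        rw [L.π_smul, RingHom.mem_ker.mp hs, zero_smul]
      rw [hker] at h1
      simpa using h1 j₀
    · intro s hs
      exact RingHom.mem_ker.mpr (hIψ s hs)

end Fermat.Agent.S57
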