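import Mathlib

set_option autoImplicit false
set_option linter.style.haveILetI false

namespace Fermat.Agent.S57

open RingTheory.Sequence IsLocalRing CategoryTheory

section pd

variable {B : Type} [CommRing B] [IsLocalRing B]

lemma hasProjectiveDimensionLT_of_isFiniteLength (n : ℕ)
    (hk : HasProjectiveDimensionLT (ModuleCat.of B (B ⧸ maximalIdeal B)) n)
    (Q : Type) [AddCommGroup Q] [Module B Q] (hQ : IsFiniteLength B Q) :
    HasProjectiveDimensionLT (ModuleCat.of B Q) n := by
  induction hQ with
  | @of_subsingleton M _ _ _ =>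
    have h0 : HasProjectiveDimensionLT (ModuleCat.of B M) 0 :=
      (ModuleCat.isZero_of_subsingleton _).hasProjectiveDimensionLT_zero
    exact hasProjectiveDimensionLT_of_ge _ 0 n (Nat.zero_le n)
  | @of_simple_quotient M _ _ N' hs _ ih =>
    let f : M →ₗ[B] M ⧸ N' := N'.mkQ
    have hS := LinearMap.shortExact_shortComplexKer (f := f) (Submodule.mkQ_surjective N')
    refine hS.hasProjectiveDimensionLT_X₂ n ?_ ?_
    · have e : N' ≃ₗ[B] LinearMap.ker f := LinearEquiv.ofEq _ _ (Submodule.ker_mkQ N').symm
      exact hasProjectiveDimensionLT_of_iso e.toModuleIso n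
    · obtain ⟨I, hI, ⟨e⟩⟩ := isSimpleModule_iff_quot_maximal.mp hs
      have hI' : I = maximalIdeal B := IsLocalRing.eq_maximalIdeal hI
      subst hI'
      exact hasProjectiveDimensionLT_of_iso e.symm.toModuleIso n

end pd

section coord

variable {A B : Type} [CommRing A] [CommRing B] (φ : A →+* B) {N : Type} [AddCommGroup N]
  [Module B N] {d : ℕ} (b : Fin d → N)

/-- The `φ`-semilinear coordinate map. -/
noncomputable def coordHom : (Fin d → A) →+ N where
  toFun c := ∑ i, φ (c i) • b i
  map_zero' := by simp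
  map_add' c c' := by simp [add_smul, Finset.sum_add_distrib]

lemma coordHom_apply (c : Fin d → A) : coordHom φ b c = ∑ i, φ (c i) • b i := rfl

lemma coordHom_smul (a : A) (c : Fin d → A) :
    coordHom φ b (a • c) = φ a • coordHom φ b c := by
  simp [coordHom, Finset.smul_sum, mul_smul]

variable (hspan : ∀ x : N, ∃ c : Fin d → A, x = ∑ i, φ (c i) • b i)
  (hrel : ∀ c : Fin d → A, ∑ i, φ (c i) • b i = 0 → ∀ i, c i = 0)

include hspan hrel in
lemma coordHom_bijective : Function.Bijective (coordHom φ b) := by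
  refine ⟨?_, fun x => ?_⟩
  · rw [injective_iff_map_eq_zero]
    intro c hc
    funext i
    exact hrel c hc i
  · obtain ⟨c, hc⟩ := hspan x
    exact ⟨c, hc.symm⟩

/-- The coordinate bijection. -/
noncomputable def coordEquiv : (Fin d → A) ≃+ N :=
  AddEquiv.ofBijective (coordHom φ b) (coordHom_bijective φ b hspan hrel)

lemma coordEquiv_smul (a : A) (c : Fin d → A) :
    coordEquiv φ b hspan hrel (a • c) = φ a • coordEquiv φ b hspan hrel c :=
  coordHom_smul φ b a c

end coord


section main

variable {A B : Type} [CommRing A] [CommRing B] (φ : A →+* B) {N : Type} [AddCommGroup N]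
  [Module B N] {d : ℕ} (b : Fin d → N)

lemma weaklyRegular_pi (xs : List A) (hxs : IsWeaklyRegular A xs) :
    IsWeaklyRegular (Fin d → A) xs := by
  have h := hxs.isWeaklyRegular_rTensor (M₂ := Fin d → A)
  exact ((TensorProduct.lid A (Fin d → A)).isWeaklyRegular_congr xs).mp h

lemma top_ne_smul_top_pi (hd : d ≠ 0) (I : Ideal A) (hI : I ≠ ⊤) :
    (⊤ : Submodule A (Fin d → A)) ≠ I • ⊤ := by
  intro h
  apply hI
  rw [Ideal.eq_top_iff_one]
  have h1 : (fun _ => 1 : Fin d → A) ∈ I • (⊤ : Submodule A (Fin d → A)) := by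
    rw [← h]; trivial
  have key : ∀ c ∈ I • (⊤ : Submodule A (Fin d → A)), ∀ i, c i ∈ I := by
    intro c hc
    refine Submodule.smul_induction_on hc ?_ ?_
    · intro a ha c _ i
      simpa using I.mul_mem_right (c i) ha
    · intro c c' hc hc' i
      simpa using I.add_mem (hc i) (hc' i)
  exact key _ h1 ⟨0, Nat.pos_of_ne_zero hd⟩


lemma isArtinian_quot (hspan : ∀ x : N, ∃ c : Fin d → A, x = ∑ i, φ (c i) • b i)
    (xs : List A) (hmax : (Ideal.ofList xs).IsMaximal) :
    IsArtinian B (N ⧸ (Ideal.ofList (xs.map φ) • ⊤ : Submodule B N)) := by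
  letI : Algebra A B := φ.toAlgebra
  letI : Module A (N ⧸ (Ideal.ofList (xs.map φ) • ⊤ : Submodule B N)) :=
    Module.compHom _ φ
  haveI : IsScalarTower A B (N ⧸ (Ideal.ofList (xs.map φ) • ⊤ : Submodule B N)) :=
    ⟨fun a b q => by
      show (φ a * b) • q = φ a • (b • q)
      rw [mul_smul]⟩
  letI : Field (A ⧸ Ideal.ofList xs) := Ideal.Quotient.field _
  haveI : IsArtinian (A ⧸ Ideal.ofList xs)
      ((Fin d → A) ⧸ (Ideal.ofList xs • ⊤ : Submodule A (Fin d → A))) := inferInstance
  haveI : IsArtinian A ((Fin d → A) ⧸ (Ideal.ofList xs • ⊤ : Submodule A (Fin d → A))) :=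
    isArtinian_of_surjective_algebraMap (R := A ⧸ Ideal.ofList xs) Ideal.Quotient.mk_surjective
  let γ : (Fin d → A) →ₗ[A] (N ⧸ (Ideal.ofList (xs.map φ) • ⊤ : Submodule B N)) :=
    { toFun := fun c => Submodule.Quotient.mk (coordHom φ b c)
      map_add' := fun c c' => by simp
      map_smul' := fun a c => by
        rw [coordHom_smul, Submodule.Quotient.mk_smul]
        rfl }
  have hγ : (Ideal.ofList xs • ⊤ : Submodule A (Fin d → A)) ≤ LinearMap.ker γ := by
    rw [Submodule.smul_le]
    intro a ha c _
    rw [LinearMap.mem_ker]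
    show Submodule.Quotient.mk (coordHom φ b (a • c)) = 0
    rw [coordHom_smul, Submodule.Quotient.mk_eq_zero]
    refine Submodule.smul_mem_smul ?_ trivial
    rw [← Ideal.map_ofList]
    exact Ideal.mem_map_of_mem φ ha
  have hsurj : Function.Surjective (Submodule.liftQ _ γ hγ) := by
    intro q
    obtain ⟨x, rfl⟩ := Submodule.Quotient.mk_surjective _ q
    obtain ⟨c, hc⟩ := hspan x
    refine ⟨Submodule.Quotient.mk c, ?_⟩
    rw [Submodule.liftQ_apply]
    show Submodule.Quotient.mk (coordHom φ b c) = _
    rw [coordHom_apply, ← hc]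
  haveI : IsArtinian A (N ⧸ (Ideal.ofList (xs.map φ) • ⊤ : Submodule B N)) :=
    isArtinian_of_surjective _ _ hsurj
  exact isArtinian_of_tower A this


theorem free_of_free_via [IsLocalRing B] [IsNoetherianRing B]
    (hspan : ∀ x : N, ∃ c : Fin d → A, x = ∑ i, φ (c i) • b i)
    (hrel : ∀ c : Fin d → A, ∑ i, φ (c i) • b i = 0 → ∀ i, c i = 0)
    (xs : List A) (hxs : IsWeaklyRegular A xs) (hmax : (Ideal.ofList xs).IsMaximal)
    (ys : List B) (hys : IsRegular B ys) (hys' : Ideal.ofList ys = IsLocalRing.maximalIdeal B)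
    (hlen : ys.length = xs.length) : Module.Free B N := by
  rcases subsingleton_or_nontrivial N with hN | hN
  · infer_instance
  have hd : d ≠ 0 := by
    rintro rfl
    obtain ⟨x, hx⟩ := exists_ne (0 : N)
    obtain ⟨c, hc⟩ := hspan x
    exact hx (by simpa using hc)
  -- finiteness
  have hfin : Module.Finite B N := by
    classical
    refine ⟨⟨Finset.univ.image b, ?_⟩⟩
    rw [eq_top_iff]
    rintro x -
    obtain ⟨c, rfl⟩ := hspan x
    exact Submodule.sum_mem _ fun i _ =>
      Submodule.smul_mem _ _ (Submodule.subset_span (by simp))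
  -- the semilinear bijection
  let β := coordEquiv φ b hspan hrel
  have hβ : List.Forall₂ (fun (r : A) (s : B) => ∀ x, β (r • x) = s • β x) xs (xs.map φ) :=
    List.forall₂_map_right_iff.mpr
      (List.forall₂_same.mpr fun r _ x => coordEquiv_smul φ b hspan hrel r x)
  have hF : IsRegular (Fin d → A) xs :=
    ⟨weaklyRegular_pi xs hxs, top_ne_smul_top_pi hd _ hmax.ne_top⟩
  have hreg : IsRegular N (xs.map φ) := (β.isRegular_congr hβ).mp hF
  have hmem : ∀ r ∈ xs.map φ, r ∈ maximalIdeal B := by
    intro r hr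
    by_contra hu
    have hunit : IsUnit r := by simpa using hu
    apply hreg.top_ne_smul
    have : Ideal.ofList (xs.map φ) = ⊤ :=
      Ideal.eq_top_of_isUnit_mem _ (Ideal.subset_span hr) hunit
    rw [this, Submodule.top_smul]
  -- projective dimension of the quotient
  have hpd := ModuleCat.projectiveDimension_quotient_eq_add_length_of_isWeaklyRegular
    (ModuleCat.of B N) (xs.map φ) hreg.toIsWeaklyRegular hmem
  -- the quotient has finite length
  have hQ : IsFiniteLength B (N ⧸ (Ideal.ofList (xs.map φ) • ⊤ : Submodule B N)) := by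
    rw [isFiniteLength_iff_isNoetherian_isArtinian]
    exact ⟨inferInstance, isArtinian_quot φ b hspan xs hmax⟩
  -- the residue field has projective dimension at most `ys.length`
  have hk : HasProjectiveDimensionLT (ModuleCat.of B (B ⧸ maximalIdeal B)) (ys.length + 1) := by
    have h1 := ModuleCat.projectiveDimension_quotient_eq_length.{0} ys hys
    have h2 : HasProjectiveDimensionLE
        (ModuleCat.of B (Shrink.{0} (B ⧸ Ideal.ofList ys))) ys.length :=
      (projectiveDimension_le_iff _ _).mp h1.le
    rw [← hys']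
    exact hasProjectiveDimensionLT_of_iso
      (Shrink.linearEquiv B (B ⧸ Ideal.ofList ys)).toModuleIso _
  have hQ' := hasProjectiveDimensionLT_of_isFiniteLength _ hk _ hQ
  have h3 : projectiveDimension
      (ModuleCat.of B (N ⧸ (Ideal.ofList (xs.map φ) • ⊤ : Submodule B N))) ≤ ys.length :=
    (projectiveDimension_le_iff _ _).mpr hQ'
  have h4 : projectiveDimension (ModuleCat.of B N) ≤ (0 : ℕ) := by
    rw [hpd, List.length_map, hlen] at h3
    have h3' : projectiveDimension (ModuleCat.of B N) + (xs.length : WithBot ℕ∞) ≤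
        ((0 : ℕ) : WithBot ℕ∞) + (xs.length : WithBot ℕ∞) := by
      simpa using h3
    exact ENat.WithBot.add_le_add_natCast_right_iff.mp h3'
  have h5 : Projective (ModuleCat.of B N) :=
    (projective_iff_hasProjectiveDimensionLE_zero _).mpr ((projectiveDimension_le_iff _ _).mp h4)
  have h6 : Module.Projective B N := (IsProjective.iff_projective N).mpr h5
  exact Module.free_of_flat_of_isLocalRing

end main

end Fermat.Agent.S57
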